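/-
P10 / G4 (global Euler characteristic), leaf (R), part 1: Maschke.
For a finite group `U` whose order is invertible in the field `k`, every short exact sequence of
representations splits; consequently `|Hom(N, Y)| = |Hom(N, X)| |Hom(N, Z)|` and
`|Hom(Y, N)| = |Hom(X, N)| |Hom(Z, N)|` for every exact `0 → X → Y → Z → 0`.
-/
import Mathlib
import Fermat.Agent.Lib.TW.Euler.AddFun

set_option autoImplicit false
set_option linter.style.haveILetI false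
set_option linter.unusedSectionVars false

open CategoryTheory

namespace Fermat.Agent.TW

noncomputable section

variable {k : Type} [Field k] {U : Type} [Group U]

section Avg

variable [Fintype U]

/-- the average of the conjugates of a linear map -/
def ehfAvgLin (Z Y : Rep.{0} k U) (s : Z.V →ₗ[k] Y.V) : Z.V →ₗ[k] Y.V :=
  (Fintype.card U : k)⁻¹ • ∑ u : U, (Y.ρ u) ∘ₗ s ∘ₗ (Z.ρ u⁻¹)

lemma ehfAvgLin_apply (Z Y : Rep.{0} k U) (s : Z.V →ₗ[k] Y.V) (z : Z.V) :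
    ehfAvgLin Z Y s z = (Fintype.card U : k)⁻¹ • ∑ u : U, Y.ρ u (s (Z.ρ u⁻¹ z)) := by
  unfold ehfAvgLin
  rw [LinearMap.smul_apply, LinearMap.sum_apply]
  rfl

lemma ehfAvgLin_comm (Z Y : Rep.{0} k U) (s : Z.V →ₗ[k] Y.V) (g : U) (z : Z.V) :
    ehfAvgLin Z Y s (Z.ρ g z) = Y.ρ g (ehfAvgLin Z Y s z) := by
  rw [ehfAvgLin_apply, ehfAvgLin_apply, map_smul, map_sum]
  congr 1
  refine (Fintype.sum_equiv (Equiv.mulLeft g) _ _ (fun u => ?_)).symm
  change Y.ρ g (Y.ρ u (s (Z.ρ u⁻¹ z))) = Y.ρ (g * u) (s (Z.ρ (g * u)⁻¹ (Z.ρ g z)))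
  rw [map_mul, mul_inv_rev, map_mul]
  change _ = Y.ρ g (Y.ρ u (s (Z.ρ u⁻¹ (Z.ρ g⁻¹ (Z.ρ g z)))))
  rw [← Module.End.mul_apply (Z.ρ g⁻¹), ← map_mul, inv_mul_cancel, map_one]
  rfl

/-- the average of the conjugates of a linear map, as a morphism -/
def ehfAvg (Z Y : Rep.{0} k U) (s : Z.V →ₗ[k] Y.V) : Z ⟶ Y :=
  Rep.ofHom ⟨ehfAvgLin Z Y s, fun g => by
    ext z
    exact ehfAvgLin_comm Z Y s g z⟩

lemma ehfAvg_apply (Z Y : Rep.{0} k U) (s : Z.V →ₗ[k] Y.V) (z : Z.V) :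
    (ehfAvg Z Y s).hom z = (Fintype.card U : k)⁻¹ • ∑ u : U, Y.ρ u (s (Z.ρ u⁻¹ z)) :=
  ehfAvgLin_apply Z Y s z

lemma ehf_avg_const (hU : (Fintype.card U : k) ≠ 0) (Z : Rep.{0} k U) (z : Z.V) :
    (Fintype.card U : k)⁻¹ • ∑ _u : U, z = z := by
  rw [Finset.sum_const, Finset.card_univ, ← Nat.cast_smul_eq_nsmul k, smul_smul,
    inv_mul_cancel₀ hU, one_smul]

end Avg

variable [Finite U]

/-- **Maschke**: a surjective morphism has an equivariant section -/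
theorem ehf_exists_section (hU : (Nat.card U : k) ≠ 0) {Y Z : Rep.{0} k U} (q : Y ⟶ Z)
    (hq : Function.Surjective q.hom) : ∃ σ : Z ⟶ Y, σ ≫ q = 𝟙 Z := by
  haveI := Fintype.ofFinite U
  rw [Nat.card_eq_fintype_card] at hU
  obtain ⟨s, hs⟩ := LinearMap.exists_rightInverse_of_surjective q.hom.toLinearMap
    (LinearMap.range_eq_top.2 hq)
  have hs' : ∀ z : Z.V, q.hom (s z) = z := fun z => LinearMap.congr_fun hs z
  refine ⟨ehfAvg Z Y s, Rep.hom_ext ?_⟩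
  ext z
  change q.hom ((ehfAvg Z Y s).hom z) = z
  rw [ehfAvg_apply, map_smul, map_sum]
  have : ∀ u : U, q.hom (Y.ρ u (s (Z.ρ u⁻¹ z))) = z := fun u => by
    rw [Rep.hom_comm_apply, hs', ← Module.End.mul_apply, ← map_mul, mul_inv_cancel, map_one]
    rfl
  rw [Finset.sum_congr rfl (fun u _ => this u)]
  exact ehf_avg_const hU Z z

/-- **Maschke**: an injective morphism has an equivariant retraction -/
theorem ehf_exists_retraction (hU : (Nat.card U : k) ≠ 0) {X Y : Rep.{0} k U} (i : X ⟶ Y)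
    (hi : Function.Injective i.hom) : ∃ r : Y ⟶ X, i ≫ r = 𝟙 X := by
  haveI := Fintype.ofFinite U
  rw [Nat.card_eq_fintype_card] at hU
  obtain ⟨r, hr⟩ := LinearMap.exists_leftInverse_of_injective i.hom.toLinearMap
    (LinearMap.ker_eq_bot.2 hi)
  have hr' : ∀ x : X.V, r (i.hom x) = x := fun x => LinearMap.congr_fun hr x
  refine ⟨ehfAvg Y X r, Rep.hom_ext ?_⟩
  ext x
  change (ehfAvg Y X r).hom (i.hom x) = x
  rw [ehfAvg_apply]
  have : ∀ u : U, X.ρ u (r (Y.ρ u⁻¹ (i.hom x))) = x := fun u => by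
    rw [← Rep.hom_comm_apply, hr', ← Module.End.mul_apply, ← map_mul, mul_inv_cancel, map_one]
    rfl
  rw [Finset.sum_congr rfl (fun u _ => this u)]
  exact ehf_avg_const hU X x

/-- **Maschke**: every short exact sequence splits -/
theorem ehf_exists_splitting (hU : (Nat.card U : k) ≠ 0) {X Y Z : Rep.{0} k U} (i : X ⟶ Y)
    (q : Y ⟶ Z) (hi : Function.Injective i.hom) (hq : Function.Surjective q.hom)
    (hex : ∀ y : Y.V, q.hom y = 0 ↔ ∃ x : X.V, i.hom x = y) :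
    ∃ (r : Y ⟶ X) (σ : Z ⟶ Y), i ≫ r = 𝟙 X ∧ σ ≫ q = 𝟙 Z ∧ r ≫ i + q ≫ σ = 𝟙 Y ∧
      i ≫ q = 0 ∧ σ ≫ r = 0 := by
  obtain ⟨σ, hσ⟩ := ehf_exists_section hU q hq
  obtain ⟨r₀, hr₀⟩ := ehf_exists_retraction hU i hi
  have hiq : i ≫ q = 0 := by
    refine Rep.hom_ext ?_
    ext x
    exact (hex _).2 ⟨x, rfl⟩
  have hσ' : ∀ z : Z.V, q.hom (σ.hom z) = z := fun z => by
    have := congrArg (fun f : Z ⟶ Z => f.hom z) hσ
    exact this
  have hr₀' : ∀ x : X.V, r₀.hom (i.hom x) = x := fun x => by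
    have := congrArg (fun f : X ⟶ X => f.hom x) hr₀
    exact this
  refine ⟨(𝟙 Y - q ≫ σ) ≫ r₀, σ, ?_, hσ, ?_, hiq, ?_⟩
  · rw [Preadditive.sub_comp, Preadditive.comp_sub, Category.id_comp, Category.assoc,
      ← Category.assoc i q, hiq, Limits.zero_comp, sub_zero, hr₀]
  · refine Rep.hom_ext ?_
    ext y
    change i.hom (r₀.hom (y - σ.hom (q.hom y))) + σ.hom (q.hom y) = y
    have h1 : q.hom (y - σ.hom (q.hom y)) = 0 := by rw [map_sub, hσ', sub_self]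
    obtain ⟨x, hx⟩ := (hex _).1 h1
    rw [← hx, hr₀', hx, sub_add_cancel]
  · rw [← Category.assoc, Preadditive.comp_sub, Category.comp_id, ← Category.assoc σ q, hσ,
      Category.id_comp, sub_self, Limits.zero_comp]

variable (hU : (Nat.card U : k) ≠ 0) {X Y Z : Rep.{0} k U} (i : X ⟶ Y)
    (q : Y ⟶ Z) (hi : Function.Injective i.hom) (hq : Function.Surjective q.hom)
    (hex : ∀ y : Y.V, q.hom y = 0 ↔ ∃ x : X.V, i.hom x = y)

include hU hi hq hex in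
/-- `Hom(N, Y) ≃ Hom(N, X) × Hom(N, Z)` -/
theorem ehf_nonempty_equiv_right (N : Rep.{0} k U) :
    Nonempty ((N ⟶ Y) ≃ (N ⟶ X) × (N ⟶ Z)) := by
  obtain ⟨r, σ, h1, h2, h3, h4, h5⟩ := ehf_exists_splitting hU i q hi hq hex
  refine ⟨⟨fun ψ => (ψ ≫ r, ψ ≫ q), fun αβ => αβ.1 ≫ i + αβ.2 ≫ σ, fun ψ => ?_, fun αβ => ?_⟩⟩
  · change (ψ ≫ r) ≫ i + (ψ ≫ q) ≫ σ = ψ
    rw [Category.assoc, Category.assoc, ← Preadditive.comp_add, h3, Category.comp_id]
  · obtain ⟨α, β⟩ := αβ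
    change ((α ≫ i + β ≫ σ) ≫ r, (α ≫ i + β ≫ σ) ≫ q) = (α, β)
    rw [Preadditive.add_comp, Preadditive.add_comp, Category.assoc, Category.assoc, Category.assoc,
      Category.assoc, h1, h2, h4, h5, Category.comp_id, Category.comp_id, Limits.comp_zero,
      Limits.comp_zero, add_zero, zero_add]

include hU hi hq hex in
/-- `Hom(Y, N) ≃ Hom(X, N) × Hom(Z, N)` -/
theorem ehf_nonempty_equiv_left (N : Rep.{0} k U) :
    Nonempty ((Y ⟶ N) ≃ (X ⟶ N) × (Z ⟶ N)) := by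
  obtain ⟨r, σ, h1, h2, h3, h4, h5⟩ := ehf_exists_splitting hU i q hi hq hex
  refine ⟨⟨fun ψ => (i ≫ ψ, σ ≫ ψ), fun αβ => r ≫ αβ.1 + q ≫ αβ.2, fun ψ => ?_, fun αβ => ?_⟩⟩
  · change r ≫ i ≫ ψ + q ≫ σ ≫ ψ = ψ
    rw [← Category.assoc, ← Category.assoc, ← Preadditive.add_comp, h3, Category.id_comp]
  · obtain ⟨α, β⟩ := αβ
    change (i ≫ (r ≫ α + q ≫ β), σ ≫ (r ≫ α + q ≫ β)) = (α, β)
    rw [Preadditive.comp_add, Preadditive.comp_add, ← Category.assoc, ← Category.assoc,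
      ← Category.assoc, ← Category.assoc, h1, h2, h4, h5, Category.id_comp, Category.id_comp,
      Limits.zero_comp, Limits.zero_comp, add_zero, zero_add]

include hU hi hq hex in
theorem ehf_card_hom_right (N : Rep.{0} k U) :
    Nat.card (N ⟶ Y) = Nat.card (N ⟶ X) * Nat.card (N ⟶ Z) := by
  obtain ⟨e⟩ := ehf_nonempty_equiv_right hU i q hi hq hex N
  rw [Nat.card_congr e, Nat.card_prod]

include hU hi hq hex in
theorem ehf_card_hom_left (N : Rep.{0} k U) :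
    Nat.card (Y ⟶ N) = Nat.card (X ⟶ N) * Nat.card (Z ⟶ N) := by
  obtain ⟨e⟩ := ehf_nonempty_equiv_left hU i q hi hq hex N
  rw [Nat.card_congr e, Nat.card_prod]

end

end Fermat.Agent.TW
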