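/-
P10 / G4 (global Euler characteristic), leaf (R), part 2: the additive function
`Z ↦ log |Hom_U(N, Z)|` on the finite `F_p[U]`-modules, `p ∤ |U|`.
-/
import Mathlib
import Fermat.Agent.Lib.TW.Euler.HomFun.Split

set_option autoImplicit false
set_option linter.style.haveILetI false
set_option linter.unusedSectionVars false

open CategoryTheory

namespace Fermat.Agent.TW

noncomputable section

lemma ehf_card_ne_zero {p : ℕ} [Fact p.Prime] {U : Type} [Group U] [Finite U]
    (hU : ¬ p ∣ Nat.card U) : ((Nat.card U : ℕ) : ZMod p) ≠ 0 := by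
  rwa [Ne, ZMod.natCast_eq_zero_iff]

lemma ehf_finite_hom {k : Type} [CommRing k] {U : Type} [Group U] (N Z : Rep.{0} k U) [Finite N.V]
    [Finite Z.V] : Finite (N ⟶ Z) :=
  Finite.of_injective (fun ψ : N ⟶ Z => (ψ.hom : N.V → Z.V))
    (fun _ _ h => Rep.hom_ext (DFunLike.coe_injective h))

lemma ehf_card_hom_ne_zero {k : Type} [CommRing k] {U : Type} [Group U] (N Z : Rep.{0} k U)
    [Finite N.V] [Finite Z.V] : ((Nat.card (N ⟶ Z) : ℕ) : ℝ) ≠ 0 := by
  haveI := ehf_finite_hom N Z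
  haveI : Nonempty (N ⟶ Z) := ⟨0⟩
  exact Nat.cast_ne_zero.2 Nat.card_pos.ne'

/-- `Z ↦ log |Hom_U(N, Z)|`: an additive function on the finite dimensional `F_p[U]`-modules if
`p ∤ |U|` (Maschke: `N` is projective). -/
def ecHomFun {p : ℕ} [Fact p.Prime] {U : Type} [Group U] [Finite U] (hU : ¬ p ∣ Nat.card U)
    (N : Rep.{0} (ZMod p) U) [Finite N.V] : EcAddFun (ZMod p) U where
  f Z := Real.log (Nat.card (N ⟶ Z))
  iso X Y := fun ⟨e⟩ => by rw [Nat.card_congr e.homToEquiv]
  add X Y Z i q hY hi hq hex := by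
    haveI := hY
    haveI : Finite Y.V := Module.finite_of_finite (ZMod p)
    haveI : Finite X.V := Finite.of_injective _ hi
    haveI : Finite Z.V := Finite.of_surjective _ hq
    rw [ehf_card_hom_right (ehf_card_ne_zero hU) i q hi hq hex N, Nat.cast_mul,
      Real.log_mul (ehf_card_hom_ne_zero N X) (ehf_card_hom_ne_zero N Z)]

theorem ecHomFun_f {p : ℕ} [Fact p.Prime] {U : Type} [Group U] [Finite U] (hU : ¬ p ∣ Nat.card U)
    (N : Rep.{0} (ZMod p) U) [Finite N.V] (Z : Rep.{0} (ZMod p) U) :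
    (ecHomFun hU N).f Z = Real.log (Nat.card (N ⟶ Z)) := rfl

end

end Fermat.Agent.TW
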