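/-
P10 / G4 (global Euler characteristic), leaf (R), part 3: in the semisimple case
(`|U|` invertible in `k`), `|Hom_U(A, B)| = |Hom_U(B, A)|` for finite representations `A`, `B`
(dévissage to simple modules + Schur's lemma).
-/
import Mathlib
import Fermat.Agent.Lib.TW.Euler.HomFun.Def

set_option autoImplicit false
set_option linter.style.haveILetI false
set_option linter.unusedSectionVars false

open CategoryTheory

namespace Fermat.Agent.TW

noncomputable section

variable {k : Type} [Field k] {U : Type} [Group U]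

/-- "simple or zero": every stable submodule is `⊥` or `⊤` -/
def EhfSimple (A : Rep.{0} k U) : Prop :=
  ∀ W : Submodule k A.V, (∀ g, W ≤ W.comap (A.ρ g)) → W = ⊥ ∨ W = ⊤

/-- **Schur** -/
lemma ehf_bijective_of_simple {A B : Rep.{0} k U} (hA : EhfSimple A) (hB : EhfSimple B)
    (φ : A ⟶ B) (hφ : φ ≠ 0) : Function.Bijective φ.hom := by
  constructor
  · rcases hA _ (ec_ker_stable φ) with h | h
    · exact LinearMap.ker_eq_bot.1 h
    · exfalso
      apply hφ
      refine Rep.hom_ext ?_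
      ext x
      have : x ∈ LinearMap.ker φ.hom.toLinearMap := by rw [h]; exact Submodule.mem_top
      exact this
  · rcases hB _ (ec_range_stable φ) with h | h
    · exfalso
      apply hφ
      refine Rep.hom_ext ?_
      ext x
      have : φ.hom x ∈ LinearMap.range φ.hom.toLinearMap := ⟨x, rfl⟩
      rw [h, Submodule.mem_bot] at this
      exact this
    · exact LinearMap.range_eq_top.1 h

lemma ehf_card_symm_of_ne_zero {A B : Rep.{0} k U} (hA : EhfSimple A) (hB : EhfSimple B)
    (φ : A ⟶ B) (hφ : φ ≠ 0) : Nat.card (A ⟶ B) = Nat.card (B ⟶ A) := by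
  haveI : IsIso φ := ec_isIso_of_bijective φ (ehf_bijective_of_simple hA hB φ hφ)
  exact Nat.card_congr ((asIso φ).symm.homToEquiv.trans (asIso φ).homFromEquiv)

lemma ehf_card_symm_of_simple {A B : Rep.{0} k U} (hA : EhfSimple A) (hB : EhfSimple B) :
    Nat.card (A ⟶ B) = Nat.card (B ⟶ A) := by
  by_cases h1 : ∃ φ : A ⟶ B, φ ≠ 0
  · obtain ⟨φ, hφ⟩ := h1
    exact ehf_card_symm_of_ne_zero hA hB φ hφ
  by_cases h2 : ∃ χ : B ⟶ A, χ ≠ 0
  · obtain ⟨χ, hχ⟩ := h2
    exact (ehf_card_symm_of_ne_zero hB hA χ hχ).symm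
  push Not at h1 h2
  haveI : Subsingleton (A ⟶ B) := ⟨fun a b => (h1 a).trans (h1 b).symm⟩
  haveI : Subsingleton (B ⟶ A) := ⟨fun a b => (h2 a).trans (h2 b).symm⟩
  rw [Nat.card_of_subsingleton (0 : A ⟶ B), Nat.card_of_subsingleton (0 : B ⟶ A)]

lemma ehf_card_sub_lt (B : Rep.{0} k U) [Finite B.V] (W : Submodule k B.V)
    (hW : ∀ g, W ≤ W.comap (B.ρ g)) (h : W ≠ ⊤) : Nat.card (ecSub B W hW).V < Nat.card B.V := by
  change Nat.card ↥W < Nat.card B.V
  obtain ⟨x, hx⟩ : ∃ x : B.V, x ∉ W := by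
    by_contra hcon
    push Not at hcon
    exact h (eq_top_iff.2 fun x _ => hcon x)
  exact Finite.card_subtype_lt (p := fun y => y ∈ W) hx

lemma ehf_card_quot_lt (B : Rep.{0} k U) [Finite B.V] (W : Submodule k B.V)
    (hW : ∀ g, W ≤ W.comap (B.ρ g)) (h : W ≠ ⊥) : Nat.card (ecQuot B W hW).V < Nat.card B.V := by
  change Nat.card (B.V ⧸ W) < Nat.card B.V
  obtain ⟨x, hxW, hx0⟩ : ∃ x : B.V, x ∈ W ∧ x ≠ 0 := by
    by_contra hcon
    push Not at hcon
    exact h (eq_bot_iff.2 fun x hx => (Submodule.mem_bot _).2 (hcon x hx))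
  haveI : Finite (B.V ⧸ W) := Finite.of_surjective _ W.mkQ_surjective
  haveI := Fintype.ofFinite B.V
  haveI := Fintype.ofFinite (B.V ⧸ W)
  rw [Nat.card_eq_fintype_card, Nat.card_eq_fintype_card]
  refine Fintype.card_lt_of_surjective_not_injective _ W.mkQ_surjective (fun hinj => hx0 ?_)
  apply hinj
  rw [map_zero, Submodule.mkQ_apply, Submodule.Quotient.mk_eq_zero]
  exact hxW

lemma ehf_sub_quot_exact (Y : Rep.{0} k U) (W : Submodule k Y.V)
    (hW : ∀ g, W ≤ W.comap (Y.ρ g)) (y : Y.V) :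
    (ecQuotProj Y W hW).hom y = 0 ↔ ∃ x : (ecSub Y W hW).V, (ecSubIncl Y W hW).hom x = y := by
  change W.mkQ y = 0 ↔ _
  rw [Submodule.mkQ_apply, Submodule.Quotient.mk_eq_zero]
  exact ⟨fun h => ⟨⟨y, h⟩, rfl⟩, fun ⟨x, hx⟩ => hx ▸ x.2⟩

variable [Finite U]

/-- the induction step: dévissage of the second argument -/
lemma ehf_card_symm_step (hU : (Nat.card U : k) ≠ 0) (n : ℕ)
    (ih : ∀ m < n, ∀ A B : Rep.{0} k U, Finite A.V → Finite B.V →
      Nat.card A.V + Nat.card B.V = m → Nat.card (A ⟶ B) = Nat.card (B ⟶ A))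
    (A B : Rep.{0} k U) [Finite A.V] [Finite B.V] (hn : Nat.card A.V + Nat.card B.V = n)
    (hB : ¬ EhfSimple B) : Nat.card (A ⟶ B) = Nat.card (B ⟶ A) := by
  unfold EhfSimple at hB
  push Not at hB
  obtain ⟨W, hW, hbot, htop⟩ := hB
  have c1 := ehf_card_sub_lt B W hW htop
  have c2 := ehf_card_quot_lt B W hW hbot
  haveI : Finite (ecSub B W hW).V := show Finite ↥W from inferInstance
  haveI : Finite (ecQuot B W hW).V := show Finite (B.V ⧸ W) from
    Finite.of_surjective _ W.mkQ_surjective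
  rw [ehf_card_hom_right hU (ecSubIncl B W hW) (ecQuotProj B W hW) (fun a b h => Subtype.ext h)
      W.mkQ_surjective (ehf_sub_quot_exact B W hW) A,
    ehf_card_hom_left hU (ecSubIncl B W hW) (ecQuotProj B W hW) (fun a b h => Subtype.ext h)
      W.mkQ_surjective (ehf_sub_quot_exact B W hW) A,
    ih _ (by omega) A (ecSub B W hW) inferInstance inferInstance rfl,
    ih _ (by omega) A (ecQuot B W hW) inferInstance inferInstance rfl]

/-- **symmetry of `|Hom|` in the semisimple case** -/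
theorem ehf_card_hom_symm (hU : (Nat.card U : k) ≠ 0) (A B : Rep.{0} k U) [Finite A.V]
    [Finite B.V] : Nat.card (A ⟶ B) = Nat.card (B ⟶ A) := by
  suffices H : ∀ n : ℕ, ∀ A B : Rep.{0} k U, Finite A.V → Finite B.V →
      Nat.card A.V + Nat.card B.V = n → Nat.card (A ⟶ B) = Nat.card (B ⟶ A) from
    H _ A B inferInstance inferInstance rfl
  intro n
  induction n using Nat.strong_induction_on with
  | _ n ih =>
    intro A B hA hB hn
    by_cases hBs : EhfSimple B
    · by_cases hAs : EhfSimple A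
      · exact ehf_card_symm_of_simple hAs hBs
      · exact (ehf_card_symm_step hU n ih B A (by omega) hAs).symm
    · exact ehf_card_symm_step hU n ih A B hn hBs

end

end Fermat.Agent.TW
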