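/-
P10 / G4 (global Euler characteristic), leaf (R): the Herbrand-type computation for a cyclic
`p'`-subgroup `U ≤ G`:  `h_{F_N}(Y|_U) = Σ_i log |M^{D_i}| - log |M^G|`, `M = coind_U^G N`,
for a finitely generated `ℤ[G]`-module `Y` with `rank Y^W + 1 = Σ_i #(W \ G / D_i)`.
-/
import Mathlib
import Fermat.Agent.Lib.TW.Euler.CyclicClass
import Fermat.Agent.Lib.TW.Euler.CardInv
import Fermat.Agent.Lib.TW.Euler.ArtinInd.Main
import Fermat.Agent.Lib.TW.Euler.HomFun.Symm
import Fermat.Agent.Lib.TW.Euler.HomFun.Rank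

set_option autoImplicit false
set_option linter.style.haveILetI false
set_option linter.unusedSectionVars false

open CategoryTheory

namespace Fermat.Agent.TW

noncomputable section

/-! ### The value of `h_{F_N}` on a permutation module -/

theorem ehf_ecH_perm {p : ℕ} [Fact p.Prime] {U : Type} [Group U] [Finite U]
    (hU : ¬ p ∣ Nat.card U) (N : Rep.{0} (ZMod p) U) [Finite N.V] (X : Type) [MulAction U X]
    [Finite X] :
    ecH p (ecHomFun hU N) (earPerm (G := U) ℤ X) = Real.log (Nat.card (EhfMap X N)) := by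
  haveI := ec_subsingleton_tor p (earPerm (G := U) ℤ X) (fun x hx => by
    funext y
    have := congrFun hx y
    change p • (x y) = 0 at this
    rw [smul_eq_zero] at this
    exact this.resolve_left (Fact.out : p.Prime).ne_zero)
  unfold ecH
  rw [(ecHomFun hU N).map_of_subsingleton (ecTor p (earPerm (G := U) ℤ X)), sub_zero, ecHomFun_f,
    ehf_card_hom_symm (ehf_card_ne_zero hU) N (ecCot p (earPerm (G := U) ℤ X)),
    ehf_card_hom_cot_perm]

/-! ### The comparison module -/

section Comparison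

variable {G : Type} [Group G] {ι : Type} (D : ι → Subgroup G)

/-- the `G`-set `⊔_i G / D_i` -/
abbrev EhfX : Type := Σ i, G ⧸ D i

variable (G) in
/-- the one point `G`-set `G / G` -/
abbrev EhfPt : Type := G ⧸ (⊤ : Subgroup G)

instance ehfPt_subsingleton : Subsingleton (EhfPt G) := QuotientGroup.subsingleton_quotient_top

variable (R : Type) [CommRing R]

/-- the constants `R ⟶ R[X]` -/
def ehfConst : earPerm (G := G) R (EhfPt G) ⟶ earPerm (G := G) R (EhfX D) :=
  ehfPull R (fun _ => (QuotientGroup.mk 1 : EhfPt G)) (fun _ _ => Subsingleton.elim _ _)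

lemma ehfConst_injective [Nonempty ι] : Function.Injective (ehfConst D R).hom := by
  refine ehfPull_injective R _ _ (fun x' => ?_)
  obtain ⟨i⟩ := (inferInstance : Nonempty ι)
  exact ⟨⟨i, QuotientGroup.mk 1⟩, Subsingleton.elim _ _⟩

/-- `R[X] / R` -/
def ehfQ : Rep.{0} R G :=
  ecQuot (earPerm (G := G) R (EhfX D)) (LinearMap.range (ehfConst D R).hom.toLinearMap)
    (ec_range_stable (ehfConst D R))

instance ehf_finite_perm [Finite ι] [Finite G] :
    Module.Finite R (earPerm (G := G) R (EhfX D)).V :=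
  (inferInstance : Module.Finite R (EhfX D → R))

instance ehf_finite_pt [Finite G] : Module.Finite R (earPerm (G := G) R (EhfPt G)).V :=
  (inferInstance : Module.Finite R (EhfPt G → R))

instance ehf_finite_Q [Finite ι] [Finite G] : Module.Finite R (ehfQ D R).V := by
  unfold ehfQ
  infer_instance

/-- the ranks of the invariants of `R[X] / R` -/
theorem ehf_finrank_inv_Q [IsDomain R] [IsNoetherianRing R] [CharZero R] [Finite G] [Fintype ι]
    [Nonempty ι] (W : Subgroup G) :
    Module.finrank R (ecInv (ehfQ D R) W) + 1 = ∑ i, ecNumPlaces W (D i) := by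
  have h1 := eca_finrank_inv_add (earPerm (G := G) R (EhfX D))
    (LinearMap.range (ehfConst D R).hom.toLinearMap) (ec_range_stable (ehfConst D R)) W
  have h2 : Module.finrank R (ecInv (ecSub (earPerm (G := G) R (EhfX D))
      (LinearMap.range (ehfConst D R).hom.toLinearMap) (ec_range_stable (ehfConst D R))) W) =
      Module.finrank R (ecInv (earPerm (G := G) R (EhfPt G)) W) := by
    refine (eca_finrank_inv_eq_of_bijective (ecToRange (ehfConst D R)) ⟨?_, ?_⟩ W).symm
    · intro a b hab
      apply ehfConst_injective D R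
      exact congrArg Subtype.val hab
    · rintro ⟨_, a, rfl⟩
      exact ⟨a, rfl⟩
  have h3 := ehf_finrank_inv_perm (G := G) R (EhfX D) W
  have h4 := ehf_finrank_inv_perm (G := G) R (EhfPt G) W
  have h5 : Nat.card (MulAction.orbitRel.Quotient W (EhfX D)) = ∑ i, ecNumPlaces W (D i) :=
    ehf_card_orbit_sigma W (fun i => G ⧸ D i)
  have h6 := h4.trans (ehf_card_orbit_of_subsingleton _)
  rw [h3, h2, h6, h5] at h1
  change Module.finrank R (ecInv (ecQuot (earPerm (G := G) R (EhfX D))
    (LinearMap.range (ehfConst D R).hom.toLinearMap) (ec_range_stable (ehfConst D R))) W) + 1 = _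
  rw [h1, add_comm]

end Comparison

/-! ### The main theorem -/

lemma ehf_finrank_int_sub {M : Type} [AddCommGroup M] {m : Module ℤ M}
    (S : @Submodule ℤ M _ _ m) :
    @Module.finrank ℤ S _ _ (AddCommGroup.toIntModule _) =
      @Module.finrank ℤ S _ _ (@Submodule.module ℤ M _ _ m S) :=
  eca_finrank_int_eq _ _

section MainThm

variable {p : ℕ} [Fact p.Prime] {G : Type} [Group G] [Finite G] (U : Subgroup G)

/-- **Leaf (R)**: let `U ≤ G` be cyclic of order prime to `p`, `N` a finite `F_p[U]`-module,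
`M = coind_U^G N`, and let `Y` be a finitely generated `ℤ[G]`-module with
`rank Y^W + 1 = Σ_i #(W \ G / D_i)` for all subgroups `W` (Dirichlet's unit theorem).  Then
`h_{F_N}(Y|_U) = Σ_i log |M^{D_i}| - log |M^G|` for `F_N = log |Hom_U(N, -)|`. -/
theorem ecH_homFun_res_eq [IsCyclic U] (hU : ¬ p ∣ Nat.card U) (N : Rep.{0} (ZMod p) U)
    [Finite N.V] {ι : Type} [Fintype ι] (D : ι → Subgroup G) (Y : Rep.{0} ℤ G)
    [Module.Finite ℤ Y.V]
    (hY : ∀ W : Subgroup G, Module.finrank ℤ (ecInv Y W) + 1 = ∑ i, ecNumPlaces W (D i)) :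
    ecH p (ecHomFun hU N) (Rep.res U.subtype Y) =
      ∑ i, Real.log (ecCardInv (Rep.coind U.subtype N) (D i)) -
        Real.log (ecCardInv (Rep.coind U.subtype N) ⊤) := by
  haveI : Nonempty ι := by
    by_contra h
    rw [not_nonempty_iff] at h
    have := hY ⊤
    rw [Finset.sum_of_isEmpty] at this
    omega
  have hp0 : ((p : ℕ) : ℤ) ≠ 0 := by exact_mod_cast (Fact.out : p.Prime).ne_zero
  -- the permutation modules
  set F := ecHomFun hU N with hF
  set ι₀ := ehfConst (G := G) D ℤ with hι₀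
  have hst := ec_range_stable ι₀
  -- step 1 : `Y` and `ℤ[X] / ℤ` have the same ranks of invariants
  have s1 : ecH p F (Rep.res U.subtype Y) = ecH p F (Rep.res U.subtype (ehfQ D ℤ)) := by
    haveI : Module.Finite ℤ (Rep.res U.subtype Y).V := ‹Module.Finite ℤ Y.V›
    haveI : Module.Finite ℤ (Rep.res U.subtype (ehfQ D ℤ)).V :=
      eca_finite_int_of _ _ (ehf_finite_Q D ℤ)
    refine ecH_eq_of_finrank_invariants_eq F _ _ (fun D' => ?_)
    have e1 := ehf_finrank_inv_res Y U D'
    have e2 := ehf_finrank_inv_res (ehfQ D ℤ) U D'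
    have e3 := hY (D'.map U.subtype)
    have e4 := ehf_finrank_inv_Q D ℤ (D'.map U.subtype)
    rw [ehf_finrank_int_sub] at e3
    rw [ehf_finrank_int_sub, ehf_finrank_int_sub, e1, e2]
    omega
  -- step 2 : additivity for `0 → ℤ → ℤ[X] → ℤ[X] / ℤ → 0`
  haveI hfP : Module.Finite ℤ (Rep.res U.subtype (earPerm (G := G) ℤ (EhfX D))).V :=
    ehf_finite_perm D ℤ
  haveI hfT : Module.Finite ℤ (Rep.res U.subtype (earPerm (G := G) ℤ (EhfPt G))).V :=
    ehf_finite_pt ℤ
  haveI hfS : Module.Finite ℤ (Rep.res U.subtype (ecSub (earPerm (G := G) ℤ (EhfX D))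
      (LinearMap.range ι₀.hom.toLinearMap) hst)).V :=
    eca_finite_ecSub (earPerm (G := G) ℤ (EhfX D)) _ hst
  haveI hfQ : Module.Finite ℤ (Rep.res U.subtype (ehfQ D ℤ)).V := ehf_finite_Q D ℤ
  have s2 : ecH p F (Rep.res U.subtype (earPerm (G := G) ℤ (EhfX D))) =
      ecH p F (Rep.res U.subtype (ecSub (earPerm (G := G) ℤ (EhfX D))
        (LinearMap.range ι₀.hom.toLinearMap) hst)) +
      ecH p F (Rep.res U.subtype (ehfQ D ℤ)) := by
    haveI := eca_finite_tor p ecaTorsFin_int hp0
      (Rep.res U.subtype (earPerm (G := G) ℤ (EhfX D)))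
    haveI := eca_finite_cot p ecaTorsFin_int hp0
      (Rep.res U.subtype (earPerm (G := G) ℤ (EhfX D)))
    haveI := eca_finite_tor p ecaTorsFin_int hp0
      (Rep.res U.subtype (ecSub (earPerm (G := G) ℤ (EhfX D))
        (LinearMap.range ι₀.hom.toLinearMap) hst))
    haveI := eca_finite_cot p ecaTorsFin_int hp0
      (Rep.res U.subtype (ecSub (earPerm (G := G) ℤ (EhfX D))
        (LinearMap.range ι₀.hom.toLinearMap) hst))
    haveI := eca_finite_tor p ecaTorsFin_int hp0 (Rep.res U.subtype (ehfQ D ℤ))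
    haveI := eca_finite_cot p ecaTorsFin_int hp0 (Rep.res U.subtype (ehfQ D ℤ))
    exact ecH_add p F
      (Rep.resMap U.subtype (ecSubIncl (earPerm (G := G) ℤ (EhfX D)) _ hst))
      (Rep.resMap U.subtype (ecQuotProj (earPerm (G := G) ℤ (EhfX D)) _ hst))
      (fun a b h => Subtype.ext h) (Submodule.mkQ_surjective _)
      (eca_sub_quot_exact (earPerm (G := G) ℤ (EhfX D)) _ hst)
  -- step 3 : the submodule of constants is `ℤ`
  have s3 : ecH p F (Rep.res U.subtype (ecSub (earPerm (G := G) ℤ (EhfX D))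
        (LinearMap.range ι₀.hom.toLinearMap) hst)) =
      ecH p F (Rep.res U.subtype (earPerm (G := G) ℤ (EhfPt G))) := by
    refine (eca_ecH_eq_of_bijective p F ecaTorsFin_int hp0
      (Y := Rep.res U.subtype (earPerm (G := G) ℤ (EhfPt G)))
      (Y' := Rep.res U.subtype (ecSub (earPerm (G := G) ℤ (EhfX D))
        (LinearMap.range ι₀.hom.toLinearMap) hst))
      (Rep.resMap U.subtype (ecToRange ι₀)) ⟨?_, ?_⟩).symm
    · intro a b hab
      apply ehfConst_injective D ℤ
      exact congrArg Subtype.val hab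
    · rintro ⟨_, a, rfl⟩
      exact ⟨a, rfl⟩
  -- step 4 : the values on the permutation modules
  have s4 : ecH p F (Rep.res U.subtype (earPerm (G := G) ℤ (EhfX D))) =
      Real.log (Nat.card (EhfMap (EhfX D) N)) := ehf_ecH_perm hU N (EhfX D)
  have s5 : ecH p F (Rep.res U.subtype (earPerm (G := G) ℤ (EhfPt G))) =
      Real.log (Nat.card (EhfMap (EhfPt G) N)) := ehf_ecH_perm hU N (EhfPt G)
  -- step 5 : counting
  have s6 : Nat.card (EhfMap (EhfX D) N) = ∏ i, ecCardInv (Rep.coind U.subtype N) (D i) := by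
    have h1 : Nat.card (EhfMap (EhfX D) N) = ∏ i, Nat.card (EhfMap (G ⧸ D i) N) :=
      ehf_card_map_sigma (fun i => G ⧸ D i) N
    rw [h1]
    exact Finset.prod_congr rfl (fun i _ => ehf_card_map_quot U (D i) N)
  have s7 : Nat.card (EhfMap (EhfPt G) N) = ecCardInv (Rep.coind U.subtype N) ⊤ :=
    ehf_card_map_quot U ⊤ N
  haveI : Finite (Rep.coind U.subtype N).V :=
    show Finite ↥(Representation.coindV U.subtype N.ρ) from inferInstance
  have hpos : ∀ E : Subgroup G, ((ecCardInv (Rep.coind U.subtype N) E : ℕ) : ℝ) ≠ 0 := by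
    intro E
    unfold ecCardInv
    haveI : Nonempty {x : (Rep.coind U.subtype N).V // ∀ g ∈ E, (Rep.coind U.subtype N).ρ g x = x} :=
      ⟨⟨0, fun g _ => map_zero _⟩⟩
    exact Nat.cast_ne_zero.2 Nat.card_pos.ne'
  rw [s1]
  have s8 : ecH p F (Rep.res U.subtype (ehfQ D ℤ)) =
      Real.log (Nat.card (EhfMap (EhfX D) N)) - Real.log (Nat.card (EhfMap (EhfPt G) N)) := by
    rw [← s4, ← s5, s2, s3]
    ring
  rw [s8, s6, s7, Nat.cast_prod, Real.log_prod (fun i _ => hpos (D i))]

end MainThm

end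

end Fermat.Agent.TW
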