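/-
P10 / G4 (global Euler characteristic), leaf (R), part 4: counting equivariant maps.
* `Hom_U(ℤ[X] / p, N) ≃ Map_U(X, N)` for a finite `U`-set `X`;
* `Map_U(Σ i, X i, N) ≃ Π i, Map_U(X i, N)`;
* `Map_U(G / D, N) ≃ (coind_U^G N)^D` for subgroups `U`, `D` of `G`.
-/
import Mathlib
import Fermat.Agent.Lib.TW.Euler.ArtinInd.FunRep
import Fermat.Agent.Lib.TW.Euler.CardInv

set_option autoImplicit false
set_option linter.style.haveILetI false
set_option linter.unusedSectionVars false

open CategoryTheory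

namespace Fermat.Agent.TW

noncomputable section

/-- the `U`-equivariant maps from a `U`-set to a representation -/
def EhfMap {k : Type} [CommRing k] {U : Type} [Group U] (X : Type) [MulAction U X]
    (N : Rep.{0} k U) : Type :=
  {f : X → N.V // ∀ (u : U) (x : X), f (u • x) = N.ρ u (f x)}

/-- a morphism of representations from an equivariant linear map -/
def ehfMkHom {k : Type} [CommRing k] {U : Type} [Group U] (A B : Rep.{0} k U)
    (L : A.V →ₗ[k] B.V) (h : ∀ u a, L (A.ρ u a) = B.ρ u (L a)) : A ⟶ B :=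
  Rep.ofHom (ρ := A.ρ) (σ := B.ρ) ⟨L, fun u => LinearMap.ext (h u)⟩

lemma ehfMkHom_apply {k : Type} [CommRing k] {U : Type} [Group U] (A B : Rep.{0} k U)
    (L : A.V →ₗ[k] B.V) (h : ∀ u a, L (A.ρ u a) = B.ρ u (L a)) (a : A.V) :
    (ehfMkHom A B L h).hom a = L a := rfl

section Psi

open scoped Classical

variable {U : Type} [Group U] (p : ℕ) [Fact p.Prime] (X : Type) [MulAction U X]
  (N : Rep.{0} (ZMod p) U)

/-- evaluation on the standard basis -/
def ehfEval (ψ : ecCot p (earPerm (G := U) ℤ X) ⟶ N) : EhfMap X N :=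
  ⟨fun x => ψ.hom (ecCotMk p (earPerm (G := U) ℤ X) (Pi.single x (1 : ℤ))), fun u x => by
    have h1 := earPerm_single (G := U) ℤ X u x
    change ψ.hom (ecCotMk p (earPerm (G := U) ℤ X) (Pi.single (u • x) (1 : ℤ))) =
      N.ρ u (ψ.hom (ecCotMk p (earPerm (G := U) ℤ X) (Pi.single x (1 : ℤ))))
    rw [← h1, ecCotMk_ρ, Rep.hom_comm_apply]⟩

lemma ehfEval_bijective [Finite X] : Function.Bijective (ehfEval p X N) := by
  have hbij := earPsi_bijective p X N
  constructor
  · intro ψ ψ' h
    refine Rep.hom_ext ?_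
    have h1 : (earPsi p X N).hom (show (ecCot p (earPerm (G := U) ℤ X)).V →ₗ[ZMod p] N.V from
        ψ.hom.toLinearMap) = (earPsi p X N).hom
          (show (ecCot p (earPerm (G := U) ℤ X)).V →ₗ[ZMod p] N.V from ψ'.hom.toLinearMap) := by
      have h0 : (ehfEval p X N ψ).1 = (ehfEval p X N ψ').1 := congrArg Subtype.val h
      exact h0
    have h2 := hbij.1 h1
    ext c
    exact LinearMap.congr_fun h2 c
  · intro f
    obtain ⟨ℓ, hℓ⟩ := hbij.2 (show X → N.V from f.1)
    have hℓ' : ∀ u : U, (earHom (ecCot p (earPerm (G := U) ℤ X)) N).ρ u ℓ = ℓ := by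
      intro u
      apply hbij.1
      rw [Rep.hom_comm_apply, hℓ]
      funext x
      change N.ρ u (f.1 (u⁻¹ • x)) = f.1 x
      rw [f.2 u⁻¹ x, ← Module.End.mul_apply, ← map_mul, mul_inv_cancel, map_one]
      rfl
    have hcomm : ∀ (u : U) (c : (ecCot p (earPerm (G := U) ℤ X)).V),
        (show (ecCot p (earPerm (G := U) ℤ X)).V →ₗ[ZMod p] N.V from ℓ)
          ((ecCot p (earPerm (G := U) ℤ X)).ρ u c) =
        N.ρ u ((show (ecCot p (earPerm (G := U) ℤ X)).V →ₗ[ZMod p] N.V from ℓ) c) := by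
      intro u c
      have h3 := LinearMap.congr_fun (hℓ' u) ((ecCot p (earPerm (G := U) ℤ X)).ρ u c)
      rw [earHom_ρ_apply] at h3
      rw [← h3]
      congr 2
      rw [← Module.End.mul_apply, ← map_mul, inv_mul_cancel, map_one]
      rfl
    refine ⟨ehfMkHom _ _ (show (ecCot p (earPerm (G := U) ℤ X)).V →ₗ[ZMod p] N.V from ℓ) hcomm, ?_⟩
    apply Subtype.ext
    exact hℓ

/-- `|Hom_U(ℤ[X] / p, N)| = |Map_U(X, N)|` -/
theorem ehf_card_hom_cot_perm [Finite X] :
    Nat.card (ecCot p (earPerm (G := U) ℤ X) ⟶ N) = Nat.card (EhfMap X N) :=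
  Nat.card_congr (Equiv.ofBijective _ (ehfEval_bijective p X N))

end Psi

section Sigma

variable {k : Type} [CommRing k] {U : Type} [Group U] {ι : Type} (X : ι → Type)
  [∀ i, MulAction U (X i)] (N : Rep.{0} k U)

/-- `Map_U(Σ i, X i, N) ≃ Π i, Map_U(X i, N)` -/
def ehfMapSigmaEquiv : EhfMap (Σ i, X i) N ≃ ((i : ι) → EhfMap (X i) N) where
  toFun f i := ⟨fun x => f.1 ⟨i, x⟩, fun u x => f.2 u ⟨i, x⟩⟩
  invFun F := ⟨fun x => (F x.1).1 x.2, fun u x => (F x.1).2 u x.2⟩
  left_inv f := by
    apply Subtype.ext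
    funext ⟨i, x⟩
    rfl
  right_inv F := by
    funext i
    apply Subtype.ext
    rfl

theorem ehf_card_map_sigma [Fintype ι] :
    Nat.card (EhfMap (Σ i, X i) N) = ∏ i, Nat.card (EhfMap (X i) N) := by
  rw [Nat.card_congr (ehfMapSigmaEquiv X N), Nat.card_pi]

end Sigma

section Coind

variable {k : Type} [CommRing k] {G : Type} [Group G] (U D : Subgroup G) (N : Rep.{0} k U)

/-- `Map_U(G / D, N) ≃ (coind_U^G N)^D` -/
def ehfMapCoindEquiv :
    EhfMap (G ⧸ D) N ≃
      {F : (Rep.coind U.subtype N).V // ∀ g ∈ D, (Rep.coind U.subtype N).ρ g F = F} where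
  toFun f := ⟨⟨fun g => f.1 (QuotientGroup.mk g), fun u g => f.2 u (QuotientGroup.mk g)⟩,
    fun d hd => by
      apply Subtype.ext
      funext g
      change f.1 (QuotientGroup.mk (g * d)) = f.1 (QuotientGroup.mk g)
      have h1 : (QuotientGroup.mk (g * d) : G ⧸ D) = QuotientGroup.mk g := by
        rw [QuotientGroup.eq]
        simpa using hd
      rw [h1]⟩
  invFun F := ⟨Quotient.lift (fun g => F.1.1 g) (fun a b hab => by
      have hab' : a⁻¹ * b ∈ D := QuotientGroup.leftRel_apply.1 hab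
      have h1 := congrArg (fun e : (Rep.coind U.subtype N).V => e.1 a) (F.2 _ hab')
      change F.1.1 (a * (a⁻¹ * b)) = F.1.1 a at h1
      rw [mul_inv_cancel_left] at h1
      exact h1.symm), fun u x => by
      induction x using QuotientGroup.induction_on with
      | H g => exact F.1.2 u g⟩
  left_inv f := by
    apply Subtype.ext
    funext x
    induction x using QuotientGroup.induction_on with
    | H g => rfl
  right_inv F := by
    apply Subtype.ext
    apply Subtype.ext
    rfl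

theorem ehf_card_map_quot :
    Nat.card (EhfMap (G ⧸ D) N) = ecCardInv (Rep.coind U.subtype N) D :=
  Nat.card_congr (ehfMapCoindEquiv U D N)

end Coind

end

end Fermat.Agent.TW
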