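/-
P10 / G4 (global Euler characteristic), leaf (R), part 5: ranks of invariants.
* `rank (R[X])^W = #(W \ X)` for a finite `G`-set `X` and a subgroup `W`;
* the orbits of a disjoint union; the orbits on `G / G`;
* the pull-back morphism `R[X'] ⟶ R[X]` of an equivariant map `X → X'`;
* invariants of a restriction.
-/
import Mathlib
import Fermat.Agent.Lib.TW.Euler.HomFun.PermCount
import Fermat.Agent.Lib.TW.Euler.Inv

set_option autoImplicit false
set_option linter.style.haveILetI false
set_option linter.unusedSectionVars false

open CategoryTheory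

namespace Fermat.Agent.TW

noncomputable section

variable {G : Type} [Group G]

section Perm

variable (R : Type) [CommRing R] (X : Type) [MulAction G X] (W : Subgroup G)

/-- composition with the projection to the orbit space, with values in the invariants -/
def ehfOrbitLin :
    (MulAction.orbitRel.Quotient W X → R) →ₗ[R] ecInv (earPerm (G := G) R X) W :=
  LinearMap.codRestrict (ecInv (earPerm (G := G) R X) W)
    (show (MulAction.orbitRel.Quotient W X → R) →ₗ[R] (earPerm (G := G) R X).V from
      LinearMap.funLeft R R (Quotient.mk'' : X → MulAction.orbitRel.Quotient W X))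
    (fun h w => by
      funext x
      change h (Quotient.mk'' ((w : G)⁻¹ • x)) = h (Quotient.mk'' x)
      congr 1
      apply Quotient.sound
      exact ⟨w⁻¹, rfl⟩)

lemma ehfOrbitLin_apply (h : MulAction.orbitRel.Quotient W X → R) (x : X) :
    (show X → R from (ehfOrbitLin R X W h).1) x = h (Quotient.mk'' x) := rfl

lemma ehfOrbitLin_bijective : Function.Bijective (ehfOrbitLin R X W) := by
  constructor
  · intro h h' hh
    funext q
    induction q using Quotient.inductionOn' with
    | h x =>
      have := congrArg (fun e : ecInv (earPerm (G := G) R X) W => (show X → R from e.1) x) hh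
      exact this
  · intro u
    have hu : ∀ (w : W) (x : X), (show X → R from u.1) (w • x) = (show X → R from u.1) x := by
      intro w x
      have h1 := congrFun (show (earPerm (G := G) R X).ρ ((w⁻¹ : W) : G) u.1 = u.1 from u.2 w⁻¹) x
      rw [earPerm_ρ_apply] at h1
      have h2 : (((w⁻¹ : W) : G))⁻¹ • x = w • x := by
        change ((w : G)⁻¹)⁻¹ • x = (w : G) • x
        rw [inv_inv]
      rw [h2] at h1
      exact h1
    refine ⟨Quotient.lift (show X → R from u.1) (fun a b hab => ?_), ?_⟩
    · obtain ⟨w, rfl⟩ := hab
      exact hu w b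
    · apply Subtype.ext
      funext x
      rfl

/-- **`rank (R[X])^W = #(W \ X)`** -/
theorem ehf_finrank_inv_perm [Nontrivial R] [Finite X] :
    Module.finrank R (ecInv (earPerm (G := G) R X) W) =
      Nat.card (MulAction.orbitRel.Quotient W X) := by
  haveI : Finite (MulAction.orbitRel.Quotient W X) := Quotient.finite _
  haveI := Fintype.ofFinite (MulAction.orbitRel.Quotient W X)
  rw [← (LinearEquiv.ofBijective (ehfOrbitLin R X W) (ehfOrbitLin_bijective R X W)).finrank_eq,
    Module.finrank_fintype_fun_eq_card, Nat.card_eq_fintype_card]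

end Perm

section Pull

variable (R : Type) [CommRing R] {X X' : Type} [MulAction G X] [MulAction G X']

/-- the pull-back `R[X'] ⟶ R[X]` along an equivariant map `X → X'` -/
def ehfPull (π : X → X') (hπ : ∀ (g : G) (x : X), π (g • x) = g • π x) :
    earPerm (G := G) R X' ⟶ earPerm (G := G) R X :=
  ehfMkHom _ _ (show (earPerm (G := G) R X').V →ₗ[R] (earPerm (G := G) R X).V from
    LinearMap.funLeft R R π) (fun g u => by
      funext x
      change (show X' → R from u) (g⁻¹ • π x) = (show X' → R from u) (π (g⁻¹ • x))
      rw [hπ])

lemma ehfPull_apply (π : X → X') (hπ : ∀ (g : G) (x : X), π (g • x) = g • π x) (u : X' → R)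
    (x : X) : (show X → R from (ehfPull R π hπ).hom u) x = u (π x) := rfl

lemma ehfPull_injective (π : X → X') (hπ : ∀ (g : G) (x : X), π (g • x) = g • π x)
    (hs : Function.Surjective π) : Function.Injective (ehfPull R π hπ).hom := by
  intro (u : X' → R) (u' : X' → R) huu'
  funext x'
  obtain ⟨x, rfl⟩ := hs x'
  have := congrFun (show (show X → R from (ehfPull R π hπ).hom u) =
    (show X → R from (ehfPull R π hπ).hom u') from huu') x
  exact this

end Pull

section Orbits

variable (W : Subgroup G)

/-- the orbits of a disjoint union -/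
def ehfOrbitSigmaEquiv {ι : Type} (X : ι → Type) [∀ i, MulAction G (X i)] :
    MulAction.orbitRel.Quotient W (Σ i, X i) ≃ Σ i, MulAction.orbitRel.Quotient W (X i) where
  toFun := Quotient.lift
    (fun x : Σ i, X i => (⟨x.1, Quotient.mk'' x.2⟩ : Σ i, MulAction.orbitRel.Quotient W (X i)))
    (fun a b hab => by
      obtain ⟨w, rfl⟩ := hab
      exact congrArg (Sigma.mk b.1) (Quotient.sound ⟨w, rfl⟩))
  invFun q := Quotient.lift
    (fun x : X q.1 => (Quotient.mk'' (⟨q.1, x⟩ : Σ i, X i) :
      MulAction.orbitRel.Quotient W (Σ i, X i)))
    (fun a b hab => by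
      obtain ⟨w, rfl⟩ := hab
      exact Quotient.sound ⟨w, rfl⟩) q.2
  left_inv q := by
    induction q using Quotient.inductionOn' with
    | h x => rfl
  right_inv q := by
    obtain ⟨i, q⟩ := q
    induction q using Quotient.inductionOn' with
    | h x => rfl

theorem ehf_card_orbit_sigma {ι : Type} [Fintype ι] (X : ι → Type) [∀ i, MulAction G (X i)]
    [∀ i, Finite (X i)] :
    Nat.card (MulAction.orbitRel.Quotient W (Σ i, X i)) =
      ∑ i, Nat.card (MulAction.orbitRel.Quotient W (X i)) := by
  haveI : ∀ i, Finite (MulAction.orbitRel.Quotient W (X i)) := fun i => Quotient.finite _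
  rw [Nat.card_congr (ehfOrbitSigmaEquiv W X), Nat.card_sigma]

theorem ehf_card_orbit_of_subsingleton {W' : Type} [Group W'] (X : Type) [MulAction W' X]
    [Subsingleton X] [Nonempty X] : Nat.card (MulAction.orbitRel.Quotient W' X) = 1 := by
  haveI : Subsingleton (MulAction.orbitRel.Quotient W' X) := by
    refine ⟨fun a b => ?_⟩
    induction a using Quotient.inductionOn' with
    | h x =>
      induction b using Quotient.inductionOn' with
      | h y => rw [Subsingleton.elim x y]
  obtain ⟨x⟩ := (inferInstance : Nonempty X)
  exact Nat.card_of_subsingleton (Quotient.mk'' x)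

end Orbits

section Res

variable {R : Type} [CommRing R]

/-- the invariants of a restriction -/
theorem ehf_finrank_inv_res (Y : Rep.{0} R G) (U : Subgroup G) (D' : Subgroup U) :
    Module.finrank R (ecInv (Rep.res U.subtype Y) D') =
      Module.finrank R (ecInv Y (D'.map U.subtype)) := by
  have h : (show Submodule R Y.V from ecInv (Rep.res U.subtype Y) D') =
      ecInv Y (D'.map U.subtype) := by
    ext y
    constructor
    · intro hy w
      obtain ⟨d, hd, hdw⟩ := w.2
      have h1 : Y.ρ (d : G) y = y := hy ⟨d, hd⟩
      change Y.ρ (w : G) y = y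
      rw [← hdw]
      exact h1
    · intro hy d
      exact hy ⟨(d.1 : G), ⟨d.1, d.2, rfl⟩⟩
  exact congrArg (fun S : Submodule R Y.V => Module.finrank R S) h

end Res

end

end Fermat.Agent.TW
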